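import Fermat.Agent.A2.IF.H429.IF
import Fermat.Prelude.Def_EllipticCurve_FrobeniusTrace

/-!
# A2 / IF (helper558): the good levels of helper429 are stable under the DECOMPOSITION group

`P` a valuation subring of `ℚ̄`, `D = P.decompositionSubgroup ℚ`, `I = P.inertiaSubgroupIn ℚ`,
`E_I = ℚ̄^I` the inertia field, `level P S = E_I(all ℚ-conjugates of S)` (helper429).

* `conj_mem_inertia`            : `σ ∈ D`, `τ ∈ I`  ⟹  `σ⁻¹ τ σ ∈ I` and `σ τ σ⁻¹ ∈ I`;
* `map_mem_inertiaField`        : `D` preserves the inertia field;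
* `level_stable_decomp`         : `D` preserves `level P S`;
* `level_stable_frobenius`      : every Frobenius lift at `P` preserves `level P S`
                                  (and so does its inverse, and all powers);
* `exists_goodField_decompStable` : IF with the extra clause "stable under `D`"
                                  (= leaf IFF of S35/FROB, G5 of S35/(G)).
-/

set_option autoImplicit false
set_option linter.style.haveILetI false
set_option linter.unusedSectionVars false

namespace Fermat.Agent.A2.IF.H558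

open Fermat.Agent.A2 Fermat.Agent.A2.IF.H429
open Fermat.Agent.S55.Bridge Fermat.Agent.S55.Bridge.H594

local notation "Qb" => AlgebraicClosure ℚ

variable (P : ValuationSubring Qb)

/-- The inertia group is normal in the decomposition group (elementwise form). -/
theorem conj_mem_inertia {σ τ : Qb ≃ₐ[ℚ] Qb} (hσ : σ ∈ P.decompositionSubgroup ℚ)
    (hτ : τ ∈ P.inertiaSubgroupIn ℚ) : σ⁻¹ * τ * σ ∈ P.inertiaSubgroupIn ℚ := by
  rw [mem_inertiaSubgroupIn_iff_forall] at hτ ⊢
  have hσi : σ⁻¹ ∈ P.decompositionSubgroup ℚ := inv_mem hσ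
  refine ⟨mul_mem (mul_mem hσi hτ.1) hσ, fun x hx => ?_⟩
  have hσx : σ x ∈ P := mem_of_mem_decomp P hσ hx
  have h1 : τ (σ x) - σ x ∈ P.nonunits := hτ.2 (σ x) hσx
  have h2 : σ⁻¹ (τ (σ x) - σ x) ∈ P.nonunits := mem_nonunits_of_mem_decomp P hσi h1
  have h3 : (σ⁻¹ * τ * σ) x - x = σ⁻¹ (τ (σ x) - σ x) := by
    rw [map_sub]
    show σ⁻¹ (τ (σ x)) - x = σ⁻¹ (τ (σ x)) - σ⁻¹ (σ x)
    congr 1
    exact (AlgEquiv.symm_apply_apply σ x).symm
  rw [h3]
  exact h2

/-- The decomposition group preserves the inertia field. -/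
theorem map_mem_inertiaField {σ : Qb ≃ₐ[ℚ] Qb} (hσ : σ ∈ P.decompositionSubgroup ℚ)
    {e : Qb} (he : e ∈ inertiaField P) : σ e ∈ inertiaField P := by
  rw [mem_inertiaField_iff] at he ⊢
  intro τ hτ
  have h1 := he (σ⁻¹ * τ * σ) (conj_mem_inertia P hσ hτ)
  have h2 : (σ⁻¹ * τ * σ) e = σ⁻¹ (τ (σ e)) := rfl
  rw [h2] at h1
  have h3 : σ (σ⁻¹ (τ (σ e))) = τ (σ e) := AlgEquiv.apply_symm_apply σ _
  rw [← h3, h1]

/-- The decomposition group preserves the level `level P S`. -/
theorem level_stable_decomp (S : Finset Qb) {σ : Qb ≃ₐ[ℚ] Qb}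
    (hσ : σ ∈ P.decompositionSubgroup ℚ) {x : Qb} (hx : x ∈ level P S) :
    σ x ∈ level P S := by
  rw [mem_level_iff] at hx ⊢
  unfold level₁ at hx ⊢
  induction hx using IntermediateField.adjoin_induction with
  | mem y hy => exact IntermediateField.subset_adjoin _ _ (map_mem_conjSet S σ hy)
  | algebraMap e =>
    have h1 : σ (algebraMap (inertiaField P) Qb e) ∈ inertiaField P :=
      map_mem_inertiaField P hσ e.2
    exact (IntermediateField.adjoin (inertiaField P) (conjSet S)).algebraMap_mem ⟨_, h1⟩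
  | add y z _ _ hy hz => rw [map_add]; exact add_mem hy hz
  | inv y _ hy => rw [map_inv₀]; exact inv_mem hy
  | mul y z _ _ hy hz => rw [map_mul]; exact mul_mem hy hz

/-- The level is mapped ONTO itself by the decomposition group. -/
theorem level_stable_decomp_iff (S : Finset Qb) {σ : Qb ≃ₐ[ℚ] Qb}
    (hσ : σ ∈ P.decompositionSubgroup ℚ) (x : Qb) : σ x ∈ level P S ↔ x ∈ level P S := by
  refine ⟨fun h => ?_, fun h => level_stable_decomp P S hσ h⟩
  have h1 := level_stable_decomp P S (inv_mem hσ) h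
  have h2 : σ⁻¹ (σ x) = x := AlgEquiv.symm_apply_apply σ x
  rwa [h2] at h1

/-- Every Frobenius lift at `P` preserves the level. -/
theorem level_stable_frobenius (S : Finset Qb) {σ : Qb ≃ₐ[ℚ] Qb} {q : ℕ}
    (hσ : P.IsFrobeniusAt σ q) {x : Qb} (hx : x ∈ level P S) : σ x ∈ level P S :=
  level_stable_decomp P S hσ.mem_decompositionSubgroup hx

/-- All powers (positive and negative) of an element of the decomposition group preserve the
level. -/
theorem level_stable_zpow (S : Finset Qb) {σ : Qb ≃ₐ[ℚ] Qb}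
    (hσ : σ ∈ P.decompositionSubgroup ℚ) (n : ℤ) {x : Qb} (hx : x ∈ level P S) :
    (σ ^ n) x ∈ level P S :=
  level_stable_decomp P S (zpow_mem hσ n) hx

/-- **IFF** (S35/FROB leaf; G5 of S35/(G)).  Every finite set of algebraic numbers lies in a good
level for `P` which is stable under the whole decomposition group of `P`, in particular under
every Frobenius lift at `P` and its inverse. -/
theorem exists_goodField_decompStable (q : ℕ) (hq : q.Prime) (P : ValuationSubring Qb)
    (hP : P.LiesOverPrime q) (S : Finset Qb) :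
    ∃ E : IntermediateField ℚ Qb, (∀ s ∈ S, s ∈ E) ∧ GoodField P E ∧
      (∀ σ ∈ P.decompositionSubgroup ℚ, ∀ e : Qb, e ∈ E ↔ σ e ∈ E) ∧
      inertiaField P ≤ E :=
  ⟨level P S, fun _ hs => mem_level_of_mem P S hs, goodField_level q hq P hP S,
    fun _ hσ e => (level_stable_decomp_iff P S hσ e).symm, inertiaField_le_level P S⟩

end Fermat.Agent.A2.IF.H558
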